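import Fermat.Agent.S17.H920.Mov1
import Fermat.Agent.S17.H680.Rational
import Fermat.Agent.Lib.RR.Adeles

/-!
# S17 / tower H, geometric layer, leaf G-MOV1 (helper832): generic reduced rational
representatives of the classes of `J₀(N)(ℚ)`

`F = ℚ̄(X₀(N))`, `∞ = JZero.cusp N`, `g = genusR ℚ̄ F`.  For every rational class
`x ∈ J₀(N)(ℚ)`, every `d ≥ 2g` and every finite set `T` of places there is a divisor `D` which is

* Galois-invariant, effective, REDUCED (`D v ≤ 1`), of degree `d`,
* disjoint from `T` and from the cusp `∞`,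
* of class `[D - d ∞] = x`.

Proof: `D₀ := E + (d - m₀) ∞` for the invariant minimal representative `E` of `x`
(`H680.JZero.exists_invariant_rep`), then the abstract G-MOV1 of helper920
(`H920.exists_fixed_reduced_member`: RAT-AVOID of helper917 + BERTINI) for `D₀` and `T ∪ {∞}`.
-/

set_option autoImplicit false

noncomputable section

open AlgebraicCurve ModularCurve

namespace Fermat.Agent.S17.H832

open Fermat.Agent.Lib.RR Fermat.Agent.S17.H680 Fermat.Agent.S17.H77 Fermat.Agent.S17.H917
  Fermat.Agent.S17.H920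

variable (N : ℕ) [NeZero N]

/-- **G-MOV1 for `J₀(N)`** (divisor form).  Every rational class has a Galois-invariant, effective,
reduced representative of any degree `d ≥ 2g`, avoiding the cusp `∞` and a given finite set of
places. -/
theorem exists_reduced_rep (d : ℕ)
    (hd : 2 * genusR (AlgebraicClosure ℚ) (modularFunctionFieldBar N) ≤ d)
    {x : JZero N}
    (hx : x ∈ FixedPoints.addSubgroup (AlgebraicClosure ℚ ≃ₐ[ℚ] AlgebraicClosure ℚ) (JZero N))
    (T : Finset (Place (AlgebraicClosure ℚ) (modularFunctionFieldBar N))) :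
    ∃ (D : Divisor (AlgebraicClosure ℚ) (modularFunctionFieldBar N))
      (hdeg : Divisor.degree (D - d • prim (JZero.cusp N)) = 0),
      IsInvariant (modularFunctionFieldFull N) D ∧ 0 ≤ D ∧ (∀ v, D v ≤ 1) ∧
      Divisor.degree D = d ∧ D (JZero.cusp N) = 0 ∧ (∀ v ∈ T, D v = 0) ∧
      Pic0.mk ⟨D - d • prim (JZero.cusp N), hdeg⟩ = x := by
  classical
  obtain ⟨m₀, E, hdegE, hm₀, hE0, hEdeg, hEinf, -, hEinv, hEx⟩ := JZero.exists_invariant_rep N hx
  have hm₀d : m₀ ≤ d := by omega
  -- the invariant divisor `D₀ = E + (d - m₀) ∞` of degree `d`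
  set D₀ : Divisor (AlgebraicClosure ℚ) (modularFunctionFieldBar N) :=
    E + (d - m₀) • prim (JZero.cusp N) with hD₀
  have hD₀inv : IsInvariant (modularFunctionFieldFull N) D₀ :=
    isInvariant_add (fun σ => hEinv σ) (JZero.isInvariant_nsmul_cusp N (d - m₀))
  have hD₀deg : Divisor.degree D₀ = d := by
    rw [hD₀, map_add, map_nsmul, degree_prim _ (deg_eq_one _), hEdeg, nsmul_eq_mul, mul_one]
    push_cast [Nat.cast_sub hm₀d]
    ring
  have hgen : 2 * (genusFF (AlgebraicClosure ℚ) (modularFunctionFieldBar N) : ℤ)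
      ≤ Divisor.degree D₀ := by
    rw [hD₀deg, genusFF_eq_genusR]
    exact_mod_cast hd
  obtain ⟨f, hf, -, hffix, hred, hT⟩ :=
    exists_fixed_reduced_member (F₀ := modularFunctionFieldFull N) hD₀inv hgen
      (insert (JZero.cusp N) T)
  have hDdeg : Divisor.degree (D₀ + divOf (K := AlgebraicClosure ℚ) f hf) = d := by
    rw [map_add, degree_divOf, add_zero, hD₀deg]
  have hdeg : Divisor.degree
      (D₀ + divOf (K := AlgebraicClosure ℚ) f hf - d • prim (JZero.cusp N)) = 0 := by
    rw [map_sub, hDdeg, map_nsmul, degree_prim _ (deg_eq_one _), nsmul_eq_mul, mul_one, sub_self]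
  refine ⟨D₀ + divOf (K := AlgebraicClosure ℚ) f hf, hdeg,
    isInvariant_add_divOf hD₀inv hf hffix, ?_, fun v => (hred v).2, hDdeg,
    hT _ (Finset.mem_insert_self _ _), fun v hv => hT v (Finset.mem_insert_of_mem hv), ?_⟩
  · intro v
    exact (hred v).1
  · rw [← hEx]
    symm
    refine (QuotientAddGroup.eq).mpr ?_
    rw [AddSubgroup.mem_addSubgroupOf]
    refine ⟨f, hf, fun v => ?_⟩
    have hcast : ((d : ℕ) • prim (JZero.cusp N) :
        Divisor (AlgebraicClosure ℚ) (modularFunctionFieldBar N)) =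
        m₀ • prim (JZero.cusp N) + (d - m₀) • prim (JZero.cusp N) := by
      rw [← add_nsmul, Nat.add_sub_cancel' hm₀d]
    simp only [AddSubgroup.coe_add, NegMemClass.coe_neg, Finsupp.add_apply, Finsupp.neg_apply,
      Finsupp.sub_apply, hcast, hD₀, divOf_apply]
    ring

end Fermat.Agent.S17.H832
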