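import Fermat.Agent.S17.H500.TopData
import Fermat.Agent.S17.H920.Mov1
import Fermat.Agent.Lib.RR.Adeles

/-!
# S17 / tower H, TOP-GLUE, geometric input (Mov1) (helper832)

`mov1Statement I : Top.Mov1Statement I` for every `I : Top.TopInput F₀` (exact type of
`S17/H500/TopData.lean`): every class `x` of the Mordell–Weil group `MWG F₀` has an effective,
Galois-invariant, REDUCED representative `D` of degree `d` (`x = [D - d ∞]`) avoiding any finite
set `T` of places.

Inputs (all on main): the Galois-invariant minimal representative (`H680.smul_minRep_eq`) and the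
abstract G-MOV1 of helper920 (`H920.exists_fixed_reduced_member`).
-/

set_option autoImplicit false

noncomputable section

open AlgebraicCurve ModularCurve

namespace Fermat.Agent.S17.H832

open Fermat.Agent.Lib.RR Fermat.Agent.S17.H680 Fermat.Agent.S17.H77 Fermat.Agent.S17.H917
  Fermat.Agent.S17.H920 Fermat.Agent.S17.H500.Top

variable {F₀ : IntermediateField ℚ (LaurentSeries ℚ)} [FF1 Qb (laurentBaseChange Qb F₀)]

/-- The place `∞` of a `TopInput` is Galois-fixed. -/
theorem smul_vinf_eq (I : TopInput F₀) (σ : GQ) :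
    arithmeticGalois F₀ σ • I.E.vinf = I.E.vinf := by
  have h := I.inf_inv σ
  rw [smul_prim] at h
  exact Finsupp.single_left_injective one_ne_zero h

/-- **(Mov1)** for the data of TOP-GLUE. -/
theorem mov1Statement (I : TopInput F₀) : Mov1Statement I := by
  classical
  intro x T
  have hx : ∀ σ : GQ, arithmeticGalois F₀ σ • (x : Pic0 Qb (laurentBaseChange Qb F₀)) = x :=
    fun σ => x.2 σ
  have hm₀ : minDeg I.E.vinf (x : Pic0 Qb (laurentBaseChange Qb F₀)) ≤
      genusR Qb (laurentBaseChange Qb F₀) := minDeg_le_genus _ _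
  have hm₀d : minDeg I.E.vinf (x : Pic0 Qb (laurentBaseChange Qb F₀)) ≤ I.d := by
    have := I.two_g_le_d
    omega
  have hEinv : IsInvariant F₀ (minRep I.E.vinf (x : Pic0 Qb (laurentBaseChange Qb F₀))) :=
    fun σ => smul_minRep_eq _ (smul_vinf_eq I σ) (hx σ)
  have hinfinv : ∀ k : ℕ, IsInvariant F₀ (k • prim I.E.vinf) := by
    intro k σ
    rw [smul_comm, I.inf_inv σ]
  -- the invariant divisor `D₀ = E + (d - m₀) ∞` of degree `d`
  set D₀ : Divisor Qb (laurentBaseChange Qb F₀) :=
    minRep I.E.vinf (x : Pic0 Qb (laurentBaseChange Qb F₀)) +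
      (I.d - minDeg I.E.vinf (x : Pic0 Qb (laurentBaseChange Qb F₀))) • prim I.E.vinf with hD₀
  have hD₀inv : IsInvariant F₀ D₀ := isInvariant_add hEinv (hinfinv _)
  have hD₀deg : Divisor.degree D₀ = I.d := by
    rw [hD₀, map_add, map_nsmul, degree_prim _ (deg_eq_one _), degree_minRep, nsmul_eq_mul,
      mul_one]
    push_cast [Nat.cast_sub hm₀d]
    ring
  have hgen : 2 * (genusFF Qb (laurentBaseChange Qb F₀) : ℤ) ≤ Divisor.degree D₀ := by
    rw [hD₀deg, genusFF_eq_genusR]
    exact_mod_cast I.two_g_le_d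
  obtain ⟨f, hf, -, hffix, hred, hT⟩ := exists_fixed_reduced_member hD₀inv hgen T
  have hDdeg : Divisor.degree (D₀ + divOf (K := Qb) f hf) = I.d := by
    rw [map_add, degree_divOf, add_zero, hD₀deg]
  have hD0 : 0 ≤ D₀ + divOf (K := Qb) f hf := by
    intro v
    exact (hred v).1
  refine ⟨⟨D₀ + divOf (K := Qb) f hf, hD0, isInvariant_add_divOf hD₀inv hf hffix⟩, ?_, ?_,
    fun P => (hred P).2, hT⟩
  · -- degree
    show (Divisor.degree (D₀ + divOf (K := Qb) f hf)).toNat = I.d
    rw [hDdeg]
    simp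
  · -- class
    apply Subtype.ext
    rw [I.coe_clsHom, ← mk_minDiv I.E.vinf (x : Pic0 Qb (laurentBaseChange Qb F₀))]
    symm
    rw [mk_eq_mk_iff']
    refine ⟨f, hf, ?_⟩
    rw [I.coe_zeroPart, coe_minDiv]
    have hdegHom : degHom (⟨D₀ + divOf (K := Qb) f hf, hD0,
        isInvariant_add_divOf hD₀inv hf hffix⟩ : Dv F₀) = I.d := by
      show (Divisor.degree (D₀ + divOf (K := Qb) f hf)).toNat = I.d
      rw [hDdeg]
      simp
    rw [hdegHom]
    show D₀ + divOf (K := Qb) f hf - I.d • prim I.E.vinf = _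
    have e : I.d • prim I.E.vinf =
        (I.d - minDeg I.E.vinf (x : Pic0 Qb (laurentBaseChange Qb F₀))) • prim I.E.vinf +
          minDeg I.E.vinf (x : Pic0 Qb (laurentBaseChange Qb F₀)) • prim I.E.vinf := by
      rw [← add_nsmul, Nat.sub_add_cancel hm₀d]
    rw [e, hD₀]
    abel

end Fermat.Agent.S17.H832
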